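/-
S26 package P3 ISOG, leaf L0 (PF): API of `pullFun` (helper2236).
Statements copied verbatim from `Fermat/Agent/S26/ISOG/Skeleton.lean` (origin/helper203).
-/
import Fermat.Agent.S26.Defs

set_option autoImplicit false

universe u

open CategoryTheory CategoryTheory.Limits AlgebraicGeometry NeronModelInfra GoodReductionJacobian

namespace Fermat.Agent.S26.ISOG

section PF

variable {X Y Z : Scheme.{u}} [IsIntegral X] [IsIntegral Y] [IsIntegral Z]

/-- Core computation: `pullFun` on the image of the stalk at `φ(η_Y)`. -/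
theorem L0_pullFun_algebraMap (φ : Y ⟶ X)
    (t : X.presheaf.stalk (φ.base (genericPoint Y))) :
    pullFun φ (algebraMap (X.presheaf.stalk (φ.base (genericPoint Y))) X.functionField t) =
      (φ.stalkMap (genericPoint Y)).hom t := by
  have h : algebraMap (X.presheaf.stalk (φ.base (genericPoint Y))) X.functionField t ∈
      localRing X (φ.base (genericPoint Y)) := ⟨t, rfl⟩
  unfold pullFun
  rw [dif_pos h]
  congr 1
  exact IsFractionRing.injective (X.presheaf.stalk (φ.base (genericPoint Y))) X.functionField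
    (Classical.choose_spec h)

/-- L0a: `pullFun` on germs. -/
theorem L0_pullFun_germ (φ : Y ⟶ X) (V : X.Opens) (hV : genericPoint X ∈ V)
    (h : genericPoint Y ∈ φ ⁻¹ᵁ V) (s : Γ(X, V)) :
    pullFun φ (X.presheaf.germ V (genericPoint X) hV s) =
      Y.presheaf.germ (φ ⁻¹ᵁ V) (genericPoint Y) h (φ.app V s) := by
  have : Nonempty V := ⟨⟨genericPoint X, hV⟩⟩
  have h1 : X.presheaf.germ V (genericPoint X) hV s =
      algebraMap (X.presheaf.stalk (φ.base (genericPoint Y))) X.functionField
        (X.presheaf.germ V (φ.base (genericPoint Y)) h s) :=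
    (Scheme.algebraMap_germ_eq_germToFunctionField X (U := V)
      (x := φ.base (genericPoint Y)) h s).symm
  rw [h1, L0_pullFun_algebraMap]
  exact Scheme.Hom.germ_stalkMap_apply φ V (genericPoint Y) h s

/-- Every element of the function field is the germ of a section over an open containing the
generic point. -/
theorem L0_exists_germ (u : X.functionField) :
    ∃ (V : X.Opens) (hV : genericPoint X ∈ V) (s : Γ(X, V)),
      X.presheaf.germ V (genericPoint X) hV s = u :=
  X.presheaf.exists_germ_eq u

/-- The ring homomorphism underlying `pullFun` for a dominant morphism. -/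
noncomputable def L0_pullHom (φ : Y ⟶ X) (hφ : φ.base (genericPoint Y) = genericPoint X) :
    X.functionField →+* Y.functionField :=
  (φ.stalkMap (genericPoint Y)).hom.comp
    (X.presheaf.stalkSpecializes (specializes_of_eq hφ)).hom

theorem L0_pullHom_apply (φ : Y ⟶ X) (hφ : φ.base (genericPoint Y) = genericPoint X)
    (u : X.functionField) : L0_pullHom φ hφ u = pullFun φ u := by
  have h1 : algebraMap (X.presheaf.stalk (φ.base (genericPoint Y))) X.functionField
      ((X.presheaf.stalkSpecializes (specializes_of_eq hφ)).hom u) = u := by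
    have h2 : X.presheaf.stalkSpecializes (specializes_of_eq hφ) ≫
        X.presheaf.stalkSpecializes
          ((genericPoint_spec X).specializes (y := φ.base (genericPoint Y)) trivial) = 𝟙 _ := by
      rw [TopCat.Presheaf.stalkSpecializes_comp, TopCat.Presheaf.stalkSpecializes_refl]
    exact congrArg (fun f => f.hom u) h2
  conv_rhs => rw [← h1]
  rw [L0_pullFun_algebraMap]
  rfl

/-- L0b: for a dominant morphism `pullFun` is a ring homomorphism. -/
theorem L0_pullFun_ringHom (φ : Y ⟶ X) (hφ : φ.base (genericPoint Y) = genericPoint X) :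
    ∃ ψ : X.functionField →+* Y.functionField, ∀ u, ψ u = pullFun φ u :=
  ⟨L0_pullHom φ hφ, L0_pullHom_apply φ hφ⟩

/-- L0c: functoriality for dominant morphisms. -/
theorem L0_pullFun_comp (φ : Y ⟶ X) (ψ : Z ⟶ Y)
    (hφ : φ.base (genericPoint Y) = genericPoint X)
    (hψ : ψ.base (genericPoint Z) = genericPoint Y) (u : X.functionField) :
    pullFun (ψ ≫ φ) u = pullFun ψ (pullFun φ u) := by
  obtain ⟨V, hV, s, rfl⟩ := L0_exists_germ u
  have hY : genericPoint Y ∈ φ ⁻¹ᵁ V := by
    show φ.base (genericPoint Y) ∈ V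
    rw [hφ]; exact hV
  have hZ : genericPoint Z ∈ ψ ⁻¹ᵁ (φ ⁻¹ᵁ V) := by
    show ψ.base (genericPoint Z) ∈ φ ⁻¹ᵁ V
    rw [hψ]; exact hY
  have hZ' : genericPoint Z ∈ (ψ ≫ φ) ⁻¹ᵁ V := hZ
  rw [L0_pullFun_germ (ψ ≫ φ) V hV hZ' s, L0_pullFun_germ φ V hV hY s,
    L0_pullFun_germ ψ (φ ⁻¹ᵁ V) hY hZ (φ.app V s)]
  rfl

/-- L0d: identity. -/
theorem L0_pullFun_id (u : X.functionField) : pullFun (𝟙 X) u = u := by
  obtain ⟨V, hV, s, rfl⟩ := L0_exists_germ u
  have h : genericPoint X ∈ (𝟙 X) ⁻¹ᵁ V := hV
  rw [L0_pullFun_germ (𝟙 X) V hV h s]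
  rfl

/-- L0e: `pullFun` respects local rings (no dominance needed). -/
theorem L0_pullFun_mem_localRing (φ : Y ⟶ X) (y : Y) (u : X.functionField)
    (hu : u ∈ localRing X (φ.base y)) : pullFun φ u ∈ localRing Y y := by
  obtain ⟨t, rfl⟩ := hu
  have hsp : genericPoint Y ⤳ y := (genericPoint_spec Y).specializes trivial
  have hsp' : φ.base (genericPoint Y) ⤳ φ.base y := φ.base.hom.map_specializes hsp
  have h1 : algebraMap (X.presheaf.stalk (φ.base y)) X.functionField t =
      algebraMap (X.presheaf.stalk (φ.base (genericPoint Y))) X.functionField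
        ((X.presheaf.stalkSpecializes hsp').hom t) := by
    have h2 : X.presheaf.stalkSpecializes hsp' ≫
        X.presheaf.stalkSpecializes
          ((genericPoint_spec X).specializes (y := φ.base (genericPoint Y)) trivial) =
        X.presheaf.stalkSpecializes
          ((genericPoint_spec X).specializes (y := φ.base y) trivial) := by
      rw [TopCat.Presheaf.stalkSpecializes_comp]
    exact (congrArg (fun f => f.hom t) h2).symm
  rw [h1, L0_pullFun_algebraMap]
  refine ⟨(φ.stalkMap y).hom t, ?_⟩
  exact (Scheme.Hom.stalkSpecializes_stalkMap_apply φ (genericPoint Y) y hsp t).symm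

/-- L0f: `pullFun` is the identity on constants, for a morphism over `Spec K`. -/
theorem L0_pullFun_constHom {K : Type u} [Field K] (sX : X ⟶ Spec (CommRingCat.of K))
    (sY : Y ⟶ Spec (CommRingCat.of K)) (φ : Y ⟶ X) (hφ : φ ≫ sX = sY) (c : K) :
    pullFun φ (constHom sX c) = constHom sY c := by
  subst hφ
  have hV : genericPoint X ∈ (⊤ : X.Opens) := trivial
  have h : genericPoint Y ∈ φ ⁻¹ᵁ (⊤ : X.Opens) := trivial
  have h1 : constHom sX c = X.presheaf.germ ⊤ (genericPoint X) hV
      (sX.appTop.hom ((Scheme.ΓSpecIso (CommRingCat.of K)).inv.hom c)) := rfl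
  rw [h1, L0_pullFun_germ φ ⊤ hV h]
  rfl

end PF

end Fermat.Agent.S26.ISOG
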