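/-
S26 package P3 ISOG, leaf L1 (helper9044): `[n]` is etale.  EXACT statement of
`Fermat.Agent.S26.ISOG.Skeleton.L1_etale_schemeNsmul` (origin/helper203 skeleton v1); the proof is
`Fermat.Agent.S26.H9044.etale_schemeNsmul` (unique infinitesimal lifting for the functor of
points, Eckmann-Hilton on square-zero thickenings; Prelude + Mathlib only).
-/
import Fermat.Agent.S26.H9044.NsmulEtale

set_option autoImplicit false

universe u

open CategoryTheory CategoryTheory.Limits AlgebraicGeometry NeronModelInfra GoodReductionJacobian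

namespace Fermat.Agent.S26.ISOG

/-- L1. -/
theorem L1_etale_schemeNsmul (K : Type u) [Field K] {A : Scheme.{u}}
    (f : A ⟶ Spec (CommRingCat.of K)) (L : RelativeGroupLaw K f) (hc : L.IsCommutative)
    [Smooth f] (n : ℕ) (hn : (n : K) ≠ 0) : Etale (L.schemeNsmul n) :=
  Fermat.Agent.S26.H9044.etale_schemeNsmul L hc n hn

end Fermat.Agent.S26.ISOG
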