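/-
S26 package P3 ISOG, leaf L2 (helper9044): `[n]` is finite, surjective and dominant.  EXACT
statements of `Fermat.Agent.S26.ISOG.Skeleton.L2_isFinite_schemeNsmul` and
`...Skeleton.L2_surjective_schemeNsmul` (origin/helper203 skeleton v1).  Prelude + Mathlib only
(no dependence on the lead's Defs).

Proofs.  `[n] ≫ f = f` is proper and `f` is separated, so `[n]` is proper; etale ⇒ locally
quasi-finite; proper + locally quasi-finite ⇒ finite (Zariski's main theorem, Mathlib).
Etale ⇒ flat and locally of finite presentation ⇒ open; proper ⇒ closed; the image is a nonempty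
clopen subset of the irreducible space `A`, hence everything.  A point `y` over the generic point
`η` is a specialisation of `η`, so `[n] η ⤳ η`, and `η ⤳ [n] η` always; `A` is `T0`.
-/
import Mathlib
import Fermat.Prelude.Def_GoodReductionJacobian_RelativeGroupLawKernel

set_option autoImplicit false

universe u

open CategoryTheory CategoryTheory.Limits AlgebraicGeometry NeronModelInfra GoodReductionJacobian

namespace Fermat.Agent.S26.ISOG

/-- An étale morphism is locally quasi-finite. -/
theorem L2_locallyQuasiFinite_of_etale {X Y : Scheme.{u}} (φ : X ⟶ Y) [Etale φ] :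
    LocallyQuasiFinite φ := by
  rw [HasRingHomProperty.iff_appLE (P := @LocallyQuasiFinite)]
  intro U V e
  have h := HasRingHomProperty.appLE @Etale φ ‹_› U V e
  algebraize [(φ.appLE U.1 V.1 e).hom]
  have : Algebra.Etale Γ(Y, U.1) Γ(X, V.1) := h
  show Algebra.QuasiFinite Γ(Y, U.1) Γ(X, V.1)
  infer_instance

/-- `[n]` is proper when the structure morphism is. -/
theorem L2_isProper_schemeNsmul (K : Type u) [Field K] {A : Scheme.{u}}
    (f : A ⟶ Spec (CommRingCat.of K)) (L : RelativeGroupLaw K f) [IsProper f] (n : ℕ) :
    IsProper (L.schemeNsmul n) := by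
  have h1 : IsProper (L.schemeNsmul n ≫ f) := by rw [L.schemeNsmul_over]; infer_instance
  exact IsProper.of_comp (L.schemeNsmul n) f

/-- L2a. -/
theorem L2_isFinite_schemeNsmul (K : Type u) [Field K] {A : Scheme.{u}}
    (f : A ⟶ Spec (CommRingCat.of K)) (L : RelativeGroupLaw K f) [IsProper f] (n : ℕ)
    [Etale (L.schemeNsmul n)] : IsFinite (L.schemeNsmul n) := by
  have h2 : IsProper (L.schemeNsmul n) := L2_isProper_schemeNsmul K f L n
  have h3 : LocallyQuasiFinite (L.schemeNsmul n) := L2_locallyQuasiFinite_of_etale _
  exact IsFinite.of_isProper_of_locallyQuasiFinite _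

/-- L2b. -/
theorem L2_surjective_schemeNsmul (K : Type u) [Field K] {A : Scheme.{u}}
    (f : A ⟶ Spec (CommRingCat.of K)) (L : RelativeGroupLaw K f) [IsProper f] [IsIntegral A]
    (n : ℕ) [Etale (L.schemeNsmul n)] :
    Surjective (L.schemeNsmul n) ∧
      (L.schemeNsmul n).base (genericPoint A) = genericPoint A := by
  have h2 : IsProper (L.schemeNsmul n) := L2_isProper_schemeNsmul K f L n
  have hopen : IsOpenMap (L.schemeNsmul n).base := (L.schemeNsmul n).isOpenMap
  have hclosed : IsClosedMap (L.schemeNsmul n).base := (L.schemeNsmul n).isClosedMap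
  have hsurj : Function.Surjective (L.schemeNsmul n).base := by
    have ho : IsOpen (Set.range (L.schemeNsmul n).base) := hopen.isOpen_range
    have hc : IsClosed (Set.range (L.schemeNsmul n).base) := hclosed.isClosed_range
    have hne : (Set.range (L.schemeNsmul n).base).Nonempty := ⟨_, ⟨genericPoint A, rfl⟩⟩
    have := IsClopen.eq_univ ⟨hc, ho⟩ hne
    exact Set.range_eq_univ.mp this
  refine ⟨⟨hsurj⟩, ?_⟩
  obtain ⟨y, hy⟩ := hsurj (genericPoint A)
  have hspec : genericPoint A ⤳ y := genericPoint_specializes y
  have h4 : (L.schemeNsmul n).base (genericPoint A) ⤳ genericPoint A := by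
    have := hspec.map (L.schemeNsmul n).continuous
    rwa [hy] at this
  exact (h4.antisymm (genericPoint_specializes _)).eq

end Fermat.Agent.S26.ISOG
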