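/-
S26 package P3 ISOG, leaf L3 (C) of the board `origin/helper203:notes/S26/P3_BOARD.md`
(= leaf CARD), by helper4305.  Exact skeleton statement `L3_natCard_torsion`.
Self-contained: frozen Prelude + Mathlib only (same content as `ISOG/Card4305.lean`, with `L3_`
prefixed names).
-/
import Fermat.Statements.S26

set_option autoImplicit false

open CategoryTheory CategoryTheory.Limits AlgebraicGeometry NeronModelInfra GoodReductionJacobian
open GoodReductionJacobian.RelativeGroupLaw

universe u

namespace Fermat.Agent.S26.ISOG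

section Generic

variable {K : Type u} [Field K] [IsAlgClosed K]

/-- A finite etale algebra over an algebraically closed field has dimension the number of its
primes. -/
theorem L3_finrank_eq_natCard_primeSpectrum (B : Type u) [CommRing B] [Algebra K B]
    [Module.Finite K B] [Algebra.Etale K B] :
    Module.finrank K B = Nat.card (PrimeSpectrum B) := by
  classical
  have : IsArtinianRing B := isArtinian_of_tower K inferInstance
  have : Finite (PrimeSpectrum B) := inferInstance
  have := Fintype.ofFinite (PrimeSpectrum B)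
  have e := Algebra.FormallyEtale.equivPiOfIsSepClosed K B
  rw [e.toLinearEquiv.finrank_eq, Module.finrank_fintype_fun_eq_card, Nat.card_eq_fintype_card]

/-- A finite etale scheme over an algebraically closed field has exactly `finrank` rational
points. -/
theorem L3_natCard_sections_eq_finrank {P : Scheme.{u}} (q : P ⟶ Spec (CommRingCat.of K))
    [IsFinite q] [Etale q] :
    Nat.card {p : Spec (CommRingCat.of K) ⟶ P // p ≫ q = 𝟙 _} =
      q.finrank (IsLocalRing.closedPoint K) := by
  have hAff : IsAffine P := isAffine_of_isAffineHom q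
  let B : CommRingCat.{u} := Γ(P, ⊤)
  let ψ : CommRingCat.of K ⟶ B := (Scheme.ΓSpecIso (CommRingCat.of K)).inv ≫ q.appTop
  have hq : q = P.isoSpec.hom ≫ Spec.map ψ := by
    have h1 := Scheme.isoSpec_hom_naturality q
    rw [Scheme.isoSpec_Spec_hom] at h1
    simp only [ψ, Spec.map_comp]
    rw [reassoc_of% h1, ← Spec.map_comp, Iso.inv_hom_id, Spec.map_id, Category.comp_id]
  have hfin : IsFinite (Spec.map ψ) := by
    rw [← MorphismProperty.cancel_left_of_respectsIso @IsFinite.{u} P.isoSpec.hom, ← hq]
    infer_instance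
  have het : Etale (Spec.map ψ) := by
    rw [← MorphismProperty.cancel_left_of_respectsIso @Etale.{u} P.isoSpec.hom, ← hq]
    infer_instance
  let _ : Algebra K B := ψ.hom.toAlgebra
  have hψ : ψ = CommRingCat.ofHom (algebraMap K B) := rfl
  have hF : Module.Finite K B := (IsFinite.SpecMap_iff ψ).mp hfin
  have hE : Algebra.Etale K B := (HasRingHomProperty.Spec_iff (P := @Etale) (φ := ψ)).mp het
  -- the rank
  have hrank : q.finrank (IsLocalRing.closedPoint K) = Module.finrank K B := by
    rw [hq, Scheme.Hom.finrank_comp_left_of_isIso, hψ]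
    rw [Scheme.Hom.finrank_SpecMap_algebraMap K B, Module.rankAtStalk_eq_finrank_of_free]
    rfl
  rw [hrank, L3_finrank_eq_natCard_primeSpectrum B]
  -- all points of `P` are closed
  have hD : DiscreteTopology P := by
    have : IsArtinianRing B := isArtinian_of_tower K inferInstance
    have : DiscreteTopology (PrimeSpectrum B) := inferInstance
    exact (P.isoSpec.hom.homeomorph).symm.discreteTopology
  have hcl : closedPoints P = Set.univ := by
    ext x
    simp only [Set.mem_univ, iff_true]
    exact isClosed_discrete _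
  rw [Nat.card_congr (pointEquivClosedPoint q), hcl, Nat.card_congr (Equiv.Set.univ _)]
  exact Nat.card_congr (P.isoSpec.hom.homeomorph).toEquiv

/-- `K`-points of `X` lying over a `K`-point `y` of `Y` are the sections of the fibre. -/
noncomputable def L3_fibreEquivSections {X Y : Scheme.{u}} (φ : X ⟶ Y)
    (y : Spec (CommRingCat.of K) ⟶ Y) :
    {x : Spec (CommRingCat.of K) ⟶ X // x ≫ φ = y} ≃
      {p : Spec (CommRingCat.of K) ⟶ pullback φ y // p ≫ pullback.snd φ y = 𝟙 _} where
  toFun x := ⟨pullback.lift x.1 (𝟙 _) (by rw [x.2, Category.id_comp]), pullback.lift_snd _ _ _⟩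
  invFun p := ⟨p.1 ≫ pullback.fst φ y, by
    rw [Category.assoc, pullback.condition, ← Category.assoc, p.2, Category.id_comp]⟩
  left_inv x := Subtype.ext (pullback.lift_fst _ _ _)
  right_inv p := by
    apply Subtype.ext
    apply pullback.hom_ext
    · exact pullback.lift_fst _ _ _
    · exact (pullback.lift_snd _ _ _).trans p.2.symm

/-- For a finite etale `φ : X ⟶ Y` and a `K`-point `y` of `Y` (`K` algebraically closed), the
number of `K`-points of `X` over `y` is the rank of `φ` at `y`. -/
theorem L3_natCard_fibre_eq_finrank {X Y : Scheme.{u}} (φ : X ⟶ Y) [IsFinite φ] [Etale φ]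
    (y : Spec (CommRingCat.of K) ⟶ Y) :
    Nat.card {x : Spec (CommRingCat.of K) ⟶ X // x ≫ φ = y} =
      φ.finrank (y (IsLocalRing.closedPoint K)) := by
  rw [Nat.card_congr (L3_fibreEquivSections φ y), L3_natCard_sections_eq_finrank,
    Scheme.Hom.finrank_pullback_snd]

end Generic

variable {K : Type u} [Field K]
variable {A : Scheme.{u}} {f : A ⟶ Spec (CommRingCat.of K)} (L : RelativeGroupLaw K f)

/-- `n • x = x ≫ [n]` for a `K`-point `x`. -/
theorem L3_nsmul_eq_comp (n : ℕ) (x : SchemeHomOver (𝟙 (Spec (CommRingCat.of K))) f) :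
    (L.nsmul (𝟙 (Spec (CommRingCat.of K))) n x).1 = x.1 ≫ L.schemeNsmul n := by
  have h := L.nsmul_natural f (𝟙 (Spec (CommRingCat.of K))) x.1 x.2 n idPoint
  have hx : schemeHomOverComp x.1 x.2 (idPoint (f := f)) = x := by
    apply Subtype.ext
    simp [schemeHomOverComp]
  rw [hx] at h
  rw [← h]
  rfl

theorem L3_isTorsionPoint_iff (n : ℕ) (x : SchemeHomOver (𝟙 (Spec (CommRingCat.of K))) f) :
    L.IsTorsionPoint (𝟙 (Spec (CommRingCat.of K))) n x ↔
      x.1 ≫ L.schemeNsmul n = (L.one (𝟙 (Spec (CommRingCat.of K)))).1 := by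
  rw [isTorsionPoint_def, ← L3_nsmul_eq_comp]
  exact ⟨fun h => congrArg Subtype.val h, fun h => Subtype.ext h⟩

/-- The `n`-torsion `K`-points are the `K`-points of `A` in the fibre of `[n]` over the unit. -/
noncomputable def L3_torsionEquivFibre (n : ℕ) :
    {x : SchemeHomOver (𝟙 (Spec (CommRingCat.of K))) f //
        L.IsTorsionPoint (𝟙 (Spec (CommRingCat.of K))) n x} ≃
      {x : Spec (CommRingCat.of K) ⟶ A //
        x ≫ L.schemeNsmul n = (L.one (𝟙 (Spec (CommRingCat.of K)))).1} where
  toFun x := ⟨x.1.1, (L3_isTorsionPoint_iff L n x.1).mp x.2⟩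
  invFun x := ⟨⟨x.1, by
      have h1 : x.1 ≫ f = (x.1 ≫ L.schemeNsmul n) ≫ f := by
        rw [Category.assoc, schemeNsmul_over]
      rw [h1, x.2]
      exact (L.one (𝟙 (Spec (CommRingCat.of K)))).2⟩,
    (L3_isTorsionPoint_iff L n _).mpr x.2⟩
  left_inv x := rfl
  right_inv x := rfl

/-- **CARD**: if `[n]` is finite etale, the number of `n`-torsion `K`-points of `A` is the rank of
`[n]` at the unit point. -/
theorem L3_natCard_torsion_eq_finrank [IsAlgClosed K] (n : ℕ)
    [IsFinite (L.schemeNsmul n)] [Etale (L.schemeNsmul n)] :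
    Nat.card {x : SchemeHomOver (𝟙 (Spec (CommRingCat.of K))) f //
        L.IsTorsionPoint (𝟙 (Spec (CommRingCat.of K))) n x} =
      (L.schemeNsmul n).finrank
        ((L.one (𝟙 (Spec (CommRingCat.of K)))).1 (IsLocalRing.closedPoint K)) := by
  rw [Nat.card_congr (L3_torsionEquivFibre L n), L3_natCard_fibre_eq_finrank]

/-- **CARD**, packaged: if `[n]` is finite etale of rank `d` at the unit point, then
`#A[n](K) = d`. -/
theorem L3_natCard_torsion_eq_of_finrank_eq [IsAlgClosed K] (n d : ℕ)
    [IsFinite (L.schemeNsmul n)] [Etale (L.schemeNsmul n)]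
    (hd : (L.schemeNsmul n).finrank
        ((L.one (𝟙 (Spec (CommRingCat.of K)))).1 (IsLocalRing.closedPoint K)) = d) :
    Nat.card {x : SchemeHomOver (𝟙 (Spec (CommRingCat.of K))) f //
        L.IsTorsionPoint (𝟙 (Spec (CommRingCat.of K))) n x} = d := by
  rw [L3_natCard_torsion_eq_finrank, hd]

/-- L3. -/
theorem L3_natCard_torsion (K : Type u) [Field K] [IsAlgClosed K] {A : Scheme.{u}}
    (f : A ⟶ Spec (CommRingCat.of K)) (L : RelativeGroupLaw K f) (n : ℕ)
    [IsFinite (L.schemeNsmul n)] [Etale (L.schemeNsmul n)] (s : Spec (CommRingCat.of K)) :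
    Nat.card {x : SchemeHomOver (𝟙 (Spec (CommRingCat.of K))) f //
        L.IsTorsionPoint (𝟙 (Spec (CommRingCat.of K))) n x} =
      (L.schemeNsmul n).finrank ((L.one (𝟙 (Spec (CommRingCat.of K)))).1.base s) := by
  have hs : s = IsLocalRing.closedPoint K := Subsingleton.elim _ _
  subst hs
  exact L3_natCard_torsion_eq_finrank L n

end Fermat.Agent.S26.ISOG
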