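import Fermat.Agent.S26.Defs

/-!
# S26 / P3 ISOG, leaf L4 (helper6323): degree of the function field extension = generic rank

For a finite flat finitely presented dominant morphism `φ : Y ⟶ X` of integral schemes the function
field `K(Y)` is finite over `K(X)` (via `pullFun φ`) of degree `φ.finrank (genericPoint X)`.
-/

set_option autoImplicit false

universe u

open CategoryTheory CategoryTheory.Limits AlgebraicGeometry

namespace Fermat.Agent.S26.ISOG

/-- `pullFun` on germs of sections over an open containing the image of the generic point. -/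
theorem L4_pullFun_germ {X Y : Scheme.{u}} [IsIntegral X] [IsIntegral Y] (φ : Y ⟶ X)
    (V : X.Opens) (hV : genericPoint X ∈ V) (h : genericPoint Y ∈ φ ⁻¹ᵁ V) (s : Γ(X, V)) :
    pullFun φ (X.presheaf.germ V (genericPoint X) hV s) =
      Y.presheaf.germ (φ ⁻¹ᵁ V) (genericPoint Y) h (φ.app V s) := by
  have : Nonempty V := ⟨⟨_, hV⟩⟩
  have hmem : X.presheaf.germ V (genericPoint X) hV s ∈
      localRing X (φ.base (genericPoint Y)) :=
    ⟨X.presheaf.germ V (φ.base (genericPoint Y)) h s,
      Scheme.algebraMap_germ_eq_germToFunctionField X (U := V) h s⟩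
  have hinj : Function.Injective
      (algebraMap (X.presheaf.stalk (φ.base (genericPoint Y))) X.functionField) :=
    IsFractionRing.injective _ _
  have hc : Classical.choose hmem = X.presheaf.germ V (φ.base (genericPoint Y)) h s := by
    apply hinj
    rw [Classical.choose_spec hmem]
    exact (Scheme.algebraMap_germ_eq_germToFunctionField X (U := V) h s).symm
  unfold pullFun
  rw [dif_pos hmem, hc]
  exact Scheme.Hom.germ_stalkMap_apply φ V (genericPoint Y) h s

/-- Algebraic core: for a finite flat injective extension of domains `R → S` the degree of the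
fraction field extension is the rank at the generic point. -/
theorem L4_alg_core {R S KX KY : Type u} [CommRing R] [CommRing S] [Field KX] [Field KY]
    [IsDomain R] [IsDomain S] [Algebra R KX] [IsFractionRing R KX] [Algebra S KY]
    [IsFractionRing S KY] [Algebra KX KY] (ψ : R →+* S) (hfin : ψ.Finite) (hflat : ψ.Flat)
    (hcomm : ∀ r, algebraMap KX KY (algebraMap R KX r) = algebraMap S KY (ψ r))
    (p : PrimeSpectrum R) (hp : p.asIdeal = ⊥) :
    Module.Finite KX KY ∧ Module.finrank KX KY = ψ.finrank p := by
  let : Algebra R S := ψ.toAlgebra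
  let : Algebra R KY := ((algebraMap KX KY).comp (algebraMap R KX)).toAlgebra
  have : IsScalarTower R KX KY := IsScalarTower.of_algebraMap_eq fun _ => rfl
  have : IsScalarTower R S KY := IsScalarTower.of_algebraMap_eq fun r => hcomm r
  have : Module.Finite R S := hfin
  have : Module.Flat R S := hflat
  have hinjR : Function.Injective (algebraMap R KX) := IsFractionRing.injective R KX
  have hinj : Function.Injective (algebraMap R S) := by
    intro a b hab
    apply hinjR
    apply (algebraMap KX KY).injective
    have h1 := hcomm a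
    have h2 := hcomm b
    have hab' : ψ a = ψ b := hab
    rw [h1, h2, hab']
  have : FaithfulSMul R S := (faithfulSMul_iff_algebraMap_injective R S).mpr hinj
  have : Algebra.IsIntegral R S := Algebra.IsIntegral.of_finite R S
  have : Algebra.IsAlgebraic R S := Algebra.IsIntegral.isAlgebraic
  have hbc : IsBaseChange KX (IsScalarTower.toAlgHom R S KY).toLinearMap :=
    Algebra.IsAlgebraic.isBaseChange_of_isFractionRing R S KX KY
  have hfinK : Module.Finite KX KY := Module.Finite.equiv hbc.equiv
  refine ⟨hfinK, ?_⟩
  let q : PrimeSpectrum KX := ⟨⊥, Ideal.isPrime_bot⟩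
  have hq : q.comap (algebraMap R KX) = p := by
    apply PrimeSpectrum.ext
    rw [hp]
    show Ideal.comap (algebraMap R KX) ⊥ = ⊥
    rw [← RingHom.ker_eq_comap_bot]
    exact (RingHom.injective_iff_ker_eq_bot _).mp hinjR
  have h1 := Module.rankAtStalk_isBaseChange hbc q
  rw [hq] at h1
  have h2 : Module.rankAtStalk (R := KX) KY q = Module.finrank KX KY := by
    rw [Module.rankAtStalk_eq_finrank_of_free]
    rfl
  rw [← h2, h1]
  rfl

/-- L4. -/
theorem L4_finrank_functionField {X Y : Scheme.{u}} [IsIntegral X] [IsIntegral Y] (φ : Y ⟶ X)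
    [IsFinite φ] [Flat φ] [LocallyOfFinitePresentation φ]
    (hφ : φ.base (genericPoint Y) = genericPoint X)
    [Algebra X.functionField Y.functionField]
    (hψ : ∀ u, algebraMap X.functionField Y.functionField u = pullFun φ u) :
    Module.Finite X.functionField Y.functionField ∧
      Module.finrank X.functionField Y.functionField = φ.finrank (genericPoint X) := by
  obtain ⟨V, hVaff, hηV⟩ : ∃ V : X.Opens, IsAffineOpen V ∧ genericPoint X ∈ V := by
    obtain ⟨_, ⟨V, hV, rfl⟩, hx, -⟩ := X.isBasis_affineOpens.exists_subset_of_mem_open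
      (Set.mem_univ (genericPoint X)) isOpen_univ
    exact ⟨V, hV, hx⟩
  have hηU : genericPoint Y ∈ φ ⁻¹ᵁ V := by
    show φ.base (genericPoint Y) ∈ V
    rw [hφ]
    exact hηV
  have hUaff : IsAffineOpen (φ ⁻¹ᵁ V) := hVaff.preimage φ
  have : Nonempty V := ⟨⟨_, hηV⟩⟩
  have : Nonempty (φ ⁻¹ᵁ V) := ⟨⟨_, hηU⟩⟩
  have := functionField_isFractionRing_of_isAffineOpen X V hVaff
  have := functionField_isFractionRing_of_isAffineOpen Y (φ ⁻¹ᵁ V) hUaff
  -- the point of `Spec Γ(X, V)` over the generic point
  let y := hVaff.primeIdealOf ⟨genericPoint X, hηV⟩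
  have hy : hVaff.fromSpec y = genericPoint X := hVaff.fromSpec_primeIdealOf ⟨_, hηV⟩
  have hybot : y.asIdeal = ⊥ := by
    have h1 : y = genericPoint (Spec Γ(X, V)) := hVaff.primeIdealOf_genericPoint
    rw [h1, genericPoint_eq_bot_of_affine]
    rfl
  have hfin : (φ.app V).hom.Finite := φ.finite_app V hVaff
  have hflat : (φ.app V).hom.Flat := by
    have := φ.flat_appLE hVaff hUaff le_rfl
    rwa [← Scheme.Hom.app_eq_appLE] at this
  have hcomm : ∀ r : Γ(X, V), algebraMap X.functionField Y.functionField
      (algebraMap Γ(X, V) X.functionField r) =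
      algebraMap Γ(Y, φ ⁻¹ᵁ V) Y.functionField ((φ.app V).hom r) := by
    intro r
    rw [hψ]
    exact L4_pullFun_germ φ V hηV hηU r
  obtain ⟨h1, h2⟩ := L4_alg_core (KX := X.functionField) (KY := Y.functionField)
    (φ.app V).hom hfin hflat hcomm y hybot
  refine ⟨h1, ?_⟩
  rw [h2]
  -- scheme side
  have hpb : IsPullback (Spec.map (φ.app V)) hUaff.fromSpec hVaff.fromSpec φ := by
    refine IsOpenImmersion.isPullback _ _ _ _ ?_ ?_
    · rw [Scheme.Hom.app_eq_appLE]
      exact (IsAffineOpen.SpecMap_appLE_fromSpec φ hVaff hUaff le_rfl).symm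
    · rw [IsAffineOpen.opensRange_fromSpec, IsAffineOpen.opensRange_fromSpec]
  have h3 := Scheme.Hom.finrank_of_isPullback hUaff.fromSpec (Spec.map (φ.app V)) φ
    hVaff.fromSpec hpb.flip y
  rw [hy] at h3
  rw [← h3, Scheme.Hom.finrank_SpecMap_eq_finrank hfin hflat]

end Fermat.Agent.S26.ISOG
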