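/-
S26 package P3 ISOG, leaf L6 (Artin): pure field theory.
Author: helper9404.  Statement frozen in `Fermat/Agent/S26/ISOG/Skeleton.lean` (origin/helper203).
-/
import Mathlib

set_option autoImplicit false

namespace Fermat.Agent.S26.ISOG

/-- L6 (pure field theory): if a finite set `G` of `E`-algebra endomorphisms of a finite
extension `F/E` has exactly `[F : E]` elements, then the elements fixed by all of them are
exactly the elements of `E`. -/
theorem L6_fixed_iff_mem_range {E F : Type*} [Field E] [Field F] [Algebra E F]
    [FiniteDimensional E F] {G : Type*} [Finite G] (ρ : G → (F →ₐ[E] F))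
    (hinj : Function.Injective ρ) (hcard : Nat.card G = Module.finrank E F) (u : F) :
    (∀ a, ρ a u = u) ↔ u ∈ (algebraMap E F).range := by
  classical
  constructor
  · intro hu
    -- `ρ` is surjective by counting
    have hle : Nat.card (F →ₐ[E] F) ≤ Module.finrank E F := by
      rw [Nat.card_eq_fintype_card]
      exact AlgHom.card_le
    have hge : Nat.card G ≤ Nat.card (F →ₐ[E] F) := Nat.card_le_card_of_injective ρ hinj
    have hcardHom : Nat.card (F →ₐ[E] F) = Module.finrank E F := le_antisymm hle (hcard ▸ hge)
    have hbij : Function.Bijective ρ := by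
      rw [Nat.bijective_iff_injective_and_card]
      exact ⟨hinj, by rw [hcard, hcardHom]⟩
    have hall : ∀ σ : F →ₐ[E] F, σ u = u := by
      intro σ
      obtain ⟨a, rfl⟩ := hbij.2 σ
      exact hu a
    -- the extension is Galois
    have hGalCard : Nat.card (F ≃ₐ[E] F) = Module.finrank E F := by
      rw [← hcardHom]
      exact Nat.card_congr (algEquivEquivAlgHom E F).toEquiv
    have : IsGalois E F := IsGalois.of_card_aut_eq_finrank E F hGalCard
    have hbot : u ∈ (⊥ : IntermediateField E F) := by
      rw [IsGalois.mem_bot_iff_fixed]
      intro σ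
      exact hall σ.toAlgHom
    rw [IntermediateField.mem_bot] at hbot
    obtain ⟨e, he⟩ := hbot
    exact ⟨e, he⟩
  · rintro ⟨e, rfl⟩ a
    exact (ρ a).commutes e

end Fermat.Agent.S26.ISOG
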