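/-
S26 package P3 ISOG -- EXPORTS (sub-lead helper203).
Assembly of the leaves L0-L7 (statements = Skeleton.lean; proofs by helper2236 (L0),
helper9044 (L1, L2), helper4305 (L3), helper6323 (L4), helper1245 (L5), helper9404 (L6))
with helper8723's `Setup.lean`.
-/
import Fermat.Agent.S26.Defs
import Fermat.Agent.S26.Setup
import Fermat.Agent.S26.ISOG.L0_PullFun
import Fermat.Agent.S26.ISOG.L1_Etale
import Fermat.Agent.S26.ISOG.L2_Finite
import Fermat.Agent.S26.ISOG.L3_Card
import Fermat.Agent.S26.ISOG.L4_FinrankFunctionField
import Fermat.Agent.S26.ISOG.L5_Rigidity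
import Fermat.Agent.S26.ISOG.L6_Artin

set_option autoImplicit false

universe u

open CategoryTheory CategoryTheory.Limits AlgebraicGeometry NeronModelInfra GoodReductionJacobian

namespace Fermat.Agent.S26.ISOG

variable {K : Type u} [Field K] {A : Scheme.{u}} {f : A ⟶ Spec (CommRingCat.of K)}

/-- `K`-points of `A`. -/
abbrev KPt (f : A ⟶ Spec (CommRingCat.of K)) : Type u :=
  SchemeHomOver (𝟙 (Spec (CommRingCat.of K))) f

/-- The `n`-torsion `K`-points: literally the subtype of the frozen statement S26. -/
abbrev Tors (L : RelativeGroupLaw K f) (n : ℕ) : Type u :=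
  {x : SchemeHomOver (𝟙 (Spec (CommRingCat.of K))) f //
    L.IsTorsionPoint (𝟙 (Spec (CommRingCat.of K))) n x}

section group

variable (L : RelativeGroupLaw K f) (hc : L.IsCommutative) (n : ℕ)

theorem isTorsionPoint_mul (hc : L.IsCommutative) {x y : KPt f}
    (hx : L.IsTorsionPoint (𝟙 _) n x) (hy : L.IsTorsionPoint (𝟙 _) n y) :
    L.IsTorsionPoint (𝟙 _) n (L.mul (𝟙 _) x y) := by
  rw [RelativeGroupLaw.isTorsionPoint_def] at hx hy ⊢
  rw [Setup.nsmul_mul L hc, hx, hy, L.mul_one]

theorem isTorsionPoint_inv {x : KPt f} (hx : L.IsTorsionPoint (𝟙 _) n x) :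
    L.IsTorsionPoint (𝟙 _) n (L.inv (𝟙 _) x) := by
  rw [RelativeGroupLaw.isTorsionPoint_def] at hx ⊢
  rw [Setup.nsmul_eq_pow] at hx ⊢
  let _ := L.pointGroup (𝟙 (Spec (CommRingCat.of K)))
  show (x⁻¹) ^ n = 1
  rw [inv_pow]
  have hx' : x ^ n = 1 := hx
  rw [hx', inv_one]

/-- The commutative group of `n`-torsion points. -/
@[reducible] noncomputable def torsCommGroup : CommGroup (Tors L n) where
  mul a b := ⟨L.mul (𝟙 _) a.1 b.1, isTorsionPoint_mul L n hc a.2 b.2⟩
  one := ⟨L.one (𝟙 _), L.isTorsionPoint_unit (𝟙 _) n⟩
  inv a := ⟨L.inv (𝟙 _) a.1, isTorsionPoint_inv L n a.2⟩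
  mul_assoc a b c := Subtype.ext (L.mul_assoc (𝟙 _) a.1 b.1 c.1)
  one_mul a := Subtype.ext (L.one_mul (𝟙 _) a.1)
  mul_one a := Subtype.ext (L.mul_one (𝟙 _) a.1)
  inv_mul_cancel a := Subtype.ext (L.inv_mul_cancel (𝟙 _) a.1)
  mul_comm a b := Subtype.ext (hc (𝟙 _) a.1 b.1)

theorem tors_mul_val (a b : Tors L n) :
    letI := torsCommGroup L hc n
    (a * b).1 = L.mul (𝟙 _) a.1 b.1 := rfl

theorem tors_one_val :
    letI := torsCommGroup L hc n
    (1 : Tors L n).1 = L.one (𝟙 _) := rfl

/-- Translation by a torsion point commutes with `[n]`. -/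
theorem translMor_schemeNsmul_of_tors (hc : L.IsCommutative) (a : Tors L n) :
    Setup.translMor L a.1 ≫ L.schemeNsmul n = L.schemeNsmul n := by
  rw [Setup.translMor_schemeNsmul L hc, (RelativeGroupLaw.isTorsionPoint_def L _ n a.1).1 a.2,
    Setup.translMor_one, Category.comp_id]

/-- A translation is determined by its point. -/
theorem eq_of_translMor_eq {a b : KPt f} (h : Setup.translMor L a = Setup.translMor L b) :
    a = b := by
  have ha := Setup.point_comp_translMor L a (L.one (𝟙 _))
  have hb := Setup.point_comp_translMor L b (L.one (𝟙 _))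
  rw [L.one_mul] at ha hb
  exact Subtype.ext (ha.symm.trans ((congrArg _ h).trans hb))

end group

section action

variable [IsIntegral A] (L : RelativeGroupLaw K f)

theorem translMor_genericPoint (a : KPt f) :
    (Setup.translMor L a).base (genericPoint A) = genericPoint A := by
  have : IsIso (Setup.translMor L a) := (Setup.translIso L a).isIso_hom
  exact genericPoint_eq_of_isOpenImmersion (Setup.translMor L a)

/-- Pullback along a dominant morphism, as a ring homomorphism. -/
noncomputable def pullHom {X Y : Scheme.{u}} [IsIntegral X] [IsIntegral Y] (φ : Y ⟶ X)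
    (hφ : φ.base (genericPoint Y) = genericPoint X) : X.functionField →+* Y.functionField :=
  (L0_pullFun_ringHom φ hφ).choose

theorem pullHom_apply {X Y : Scheme.{u}} [IsIntegral X] [IsIntegral Y] (φ : Y ⟶ X)
    (hφ : φ.base (genericPoint Y) = genericPoint X) (u : X.functionField) :
    pullHom φ hφ u = pullFun φ u :=
  (L0_pullFun_ringHom φ hφ).choose_spec u

/-- The action of a `K`-point on rational functions: pullback along the translation. -/
noncomputable def act (a : KPt f) : A.functionField →+* A.functionField :=
  pullHom (Setup.translMor L a) (translMor_genericPoint L a)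

theorem act_apply (a : KPt f) (u : A.functionField) :
    act L a u = pullFun (Setup.translMor L a) u := pullHom_apply _ _ u

theorem act_one (u : A.functionField) : act L (L.one (𝟙 _)) u = u := by
  rw [act_apply, Setup.translMor_one, L0_pullFun_id]

theorem act_mul (a b : KPt f) (u : A.functionField) :
    act L (L.mul (𝟙 _) a b) u = act L a (act L b u) := by
  rw [act_apply, act_apply, act_apply, ← Setup.translMor_translMor,
    L0_pullFun_comp _ _ (translMor_genericPoint L b) (translMor_genericPoint L a)]

theorem act_constHom (a : KPt f) (c : K) : act L a (constHom f c) = constHom f c := by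
  rw [act_apply, L0_pullFun_constHom f f _ (Setup.translMor_comp L a)]

theorem act_mem_localRing (a : KPt f) (x : A) (u : A.functionField)
    (hu : u ∈ localRing A ((Setup.translMor L a).base x)) : act L a u ∈ localRing A x := by
  rw [act_apply]; exact L0_pullFun_mem_localRing _ x u hu

/-- Faithfulness: a `K`-point acting trivially on the function field is the unit. -/
theorem eq_of_act_eq [IsSeparated f] {a b : KPt f} (h : ∀ u, act L a u = act L b u) : a = b := by
  apply eq_of_translMor_eq L
  refine L5_eq_of_pullFun_eq f _ _ (Setup.translMor_comp L a) (Setup.translMor_comp L b)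
    (translMor_genericPoint L a) (translMor_genericPoint L b) (fun u => ?_)
  rw [← act_apply, ← act_apply]; exact h u

end action

section nsmul

variable [IsIntegral A] (L : RelativeGroupLaw K f) (hc : L.IsCommutative) (n : ℕ)

/-- `[n]` is dominant. -/
theorem schemeNsmul_genericPoint [IsProper f] [Etale (L.schemeNsmul n)] :
    (L.schemeNsmul n).base (genericPoint A) = genericPoint A :=
  (L2_surjective_schemeNsmul K f L n).2

/-- `[n]^*` on the function field, as a `K`-algebra endomorphism of `FF f`. -/
noncomputable def nsmulHom [IsProper f] [Etale (L.schemeNsmul n)] : FF f →ₐ[K] FF f where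
  toRingHom := pullHom (L.schemeNsmul n) (schemeNsmul_genericPoint L n)
  commutes' c := by
    show pullHom (L.schemeNsmul n) (schemeNsmul_genericPoint L n) (constHom f c) = constHom f c
    rw [pullHom_apply, L0_pullFun_constHom f f _ (L.schemeNsmul_over n)]

theorem nsmulHom_apply [IsProper f] [Etale (L.schemeNsmul n)] (u : FF f) :
    nsmulHom L n u = pullFun (L.schemeNsmul n) (id u : A.functionField) :=
  pullHom_apply (L.schemeNsmul n) (schemeNsmul_genericPoint L n) u

/-- Torsion translations fix `[n]^*` of any function. -/
theorem act_pullFun_schemeNsmul [IsProper f] [Etale (L.schemeNsmul n)] (hc : L.IsCommutative)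
    (a : Tors L n) (u : A.functionField) :
    act L a.1 (pullFun (L.schemeNsmul n) u) = pullFun (L.schemeNsmul n) u := by
  rw [act_apply, ← L0_pullFun_comp _ _ (schemeNsmul_genericPoint L n)
    (translMor_genericPoint L a.1), translMor_schemeNsmul_of_tors L n hc a]

end nsmul

section exports

variable [IsIntegral A] (L : RelativeGroupLaw K f) (n : ℕ)

/-- The action of the torsion group on the function field. -/
@[reducible] noncomputable def torsAction (hc : L.IsCommutative) :
    letI := torsCommGroup L hc n
    MulSemiringAction (Tors L n) (FF f) :=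
  letI := torsCommGroup L hc n
  { smul := fun a u => (act L a.1 (id u : A.functionField) : A.functionField)
    one_smul := fun u => act_one L u
    mul_smul := fun a b u => act_mul L a.1 b.1 u
    smul_zero := fun a => map_zero (act L a.1)
    smul_add := fun a u v => map_add (act L a.1) u v
    smul_one := fun a => map_one (act L a.1)
    smul_mul := fun a u v => map_mul (act L a.1) u v }

theorem torsAction_smul_def (hc : L.IsCommutative) (a : Tors L n) (u : FF f) :
    letI := torsCommGroup L hc n
    letI := torsAction L n hc
    a • u = (act L a.1 (id u : A.functionField) : A.functionField) := rfl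

/-- EXPORT: constants are fixed. -/
theorem torsAction_smul_algebraMap (hc : L.IsCommutative) (a : Tors L n) (c : K) :
    letI := torsCommGroup L hc n
    letI := torsAction L n hc
    a • (algebraMap K (FF f) c) = algebraMap K (FF f) c :=
  act_constHom L a.1 c

/-- EXPORT: the action is faithful. -/
theorem torsAction_faithful [IsSeparated f] (hc : L.IsCommutative) (a : Tors L n) :
    letI := torsCommGroup L hc n
    letI := torsAction L n hc
    (∀ x : FF f, a • x = x) → a = 1 := by
  intro h
  apply Subtype.ext
  show a.1 = L.one (𝟙 _)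
  apply eq_of_act_eq L
  intro u
  rw [act_one]
  exact h u

/-- EXPORT: the order of the torsion group is the generic rank of `[n]`; it is positive. -/
theorem natCard_tors [IsAlgClosed K] [IsProper f] [Smooth f] (hc : L.IsCommutative)
    (hn : (n : K) ≠ 0) :
    Nat.card (Tors L n) = (L.schemeNsmul n).finrank (genericPoint A) ∧
      0 < Nat.card (Tors L n) := by
  have := L1_etale_schemeNsmul K f L hc n hn
  have := L2_isFinite_schemeNsmul K f L n
  have h3 := L3_natCard_torsion K f L n (IsLocalRing.closedPoint K)
  have hconst := (Scheme.Hom.isLocallyConstant_finrank (L.schemeNsmul n)).apply_eq_of_preconnectedSpace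
    ((L.one (𝟙 (Spec (CommRingCat.of K)))).1.base (IsLocalRing.closedPoint K)) (genericPoint A)
  have hsurj := (L2_surjective_schemeNsmul K f L n).1
  have hpos : 1 ≤ (L.schemeNsmul n).finrank (genericPoint A) :=
    (Scheme.Hom.one_le_finrank_iff_surjective (L.schemeNsmul n)).2 hsurj (genericPoint A)
  refine ⟨h3.trans hconst, ?_⟩
  rw [h3.trans hconst]; exact hpos

/-- EXPORT: the torsion group is finite. -/
theorem finite_tors [IsAlgClosed K] [IsProper f] [Smooth f] (hc : L.IsCommutative)
    (hn : (n : K) ≠ 0) :
    Finite (Tors L n) :=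
  Nat.finite_of_card_ne_zero (natCard_tors L n hc hn).2.ne'

/-- EXPORT: the fixed field of the torsion group is the image of `[n]^*`. -/
theorem fixed_iff [IsAlgClosed K] [IsProper f] [Smooth f] (hc : L.IsCommutative)
    (hn : (n : K) ≠ 0) (u : FF f) :
    haveI := L1_etale_schemeNsmul K f L hc n hn
    letI := torsCommGroup L hc n
    letI := torsAction L n hc
    (∀ a : Tors L n, a • u = u) ↔ u ∈ (nsmulHom L n).range := by
  have := L1_etale_schemeNsmul K f L hc n hn
  have := L2_isFinite_schemeNsmul K f L n
  have := finite_tors L n hc hn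
  have hgen := schemeNsmul_genericPoint L n
  let alg : Algebra A.functionField A.functionField :=
    (pullHom (L.schemeNsmul n) hgen).toAlgebra
  have halg : ∀ v, algebraMap A.functionField A.functionField v = pullFun (L.schemeNsmul n) v :=
    fun v => pullHom_apply _ hgen v
  obtain ⟨hfin, hrank⟩ := L4_finrank_functionField (L.schemeNsmul n) hgen halg
  let ρ : Tors L n → (A.functionField →ₐ[A.functionField] A.functionField) := fun a =>
    { toRingHom := act L a.1
      commutes' := fun v => by
        show act L a.1 (algebraMap A.functionField A.functionField v) = _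
        rw [halg, act_pullFun_schemeNsmul L n hc a] }
  have hinj : Function.Injective ρ := by
    intro a b hab
    apply Subtype.ext
    apply eq_of_act_eq L
    intro v
    exact congrArg (fun g : A.functionField →ₐ[A.functionField] A.functionField => g v) hab
  have hcard := (natCard_tors L n hc hn).1.trans hrank.symm
  have key := L6_fixed_iff_mem_range ρ hinj hcard (id u : A.functionField)
  constructor
  · intro h
    obtain ⟨v, hv⟩ := key.1 (fun a => h a)
    exact ⟨v, (pullHom_apply _ hgen v).trans ((halg v).symm.trans hv)⟩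
  · rintro ⟨v, hv⟩ a
    refine key.2 ⟨v, ?_⟩ a
    exact (halg v).trans ((pullHom_apply _ hgen v).symm.trans hv)

end exports

section divisors

/-- The value of the pulled back family of local equations, for a dominant morphism. -/
theorem pullback_apply_of_dominant {X Y : Scheme.{u}} [IsIntegral X] [IsIntegral Y] (φ : Y ⟶ X)
    (hφ : φ.base (genericPoint Y) = genericPoint X) (D : Fam X) (y : Y) :
    ((Fam.pullback φ D y : (Y.functionField)ˣ) : Y.functionField) =
      pullFun φ ((D (φ.base y) : (X.functionField)ˣ) : X.functionField) := by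
  have hne : pullFun φ ((D (φ.base y) : (X.functionField)ˣ) : X.functionField) ≠ 0 := by
    rw [← pullHom_apply φ hφ]
    exact (map_ne_zero (pullHom φ hφ)).2 (Units.ne_zero _)
  unfold Fam.pullback toUnit
  rw [dif_neg hne]
  rfl

theorem pow_apply_val {X : Scheme.{u}} [IsIntegral X] (D : Fam X) (k : ℕ) (x : X) :
    (((D ^ k) x : (X.functionField)ˣ) : X.functionField) =
      ((D x : (X.functionField)ˣ) : X.functionField) ^ k := by
  rw [Pi.pow_apply, Units.val_pow_eq_pow_val]

variable [IsIntegral A] (L : RelativeGroupLaw K f) (n : ℕ)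

/-- EXPORT (`map_mem_W`): `[n]^*` maps `L(k D)` into `L(k [n]^* D)`. -/
theorem nsmulHom_mem_LSpace [IsProper f] [Etale (L.schemeNsmul n)] (D : Fam A) (k : ℕ)
    (u : FF f) (hu : u ∈ LSpace f (D ^ k)) :
    nsmulHom L n u ∈ LSpace f (Fam.pullback (L.schemeNsmul n) D ^ k) := by
  have hgen := schemeNsmul_genericPoint L n
  rw [mem_LSpace] at hu ⊢
  intro x
  have h1 := L0_pullFun_mem_localRing (L.schemeNsmul n) x _ (hu ((L.schemeNsmul n).base x))
  rw [pow_apply_val] at h1 ⊢
  rw [pullback_apply_of_dominant _ hgen]
  rw [← pullHom_apply _ hgen, map_mul, map_pow, pullHom_apply, pullHom_apply] at h1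
  have h2 : (id (nsmulHom L n u) : A.functionField) = pullFun (L.schemeNsmul n) (id u) :=
    nsmulHom_apply L n u
  rw [h2]
  exact h1

/-- EXPORT (`smul_mem_W`): `L(k [n]^* D)` is stable under torsion translations. -/
theorem act_mem_LSpace_pullback [IsProper f] [Etale (L.schemeNsmul n)] (hc : L.IsCommutative)
    (D : Fam A) (k : ℕ) (a : Tors L n) (u : FF f)
    (hu : u ∈ LSpace f (Fam.pullback (L.schemeNsmul n) D ^ k)) :
    letI := torsCommGroup L hc n
    letI := torsAction L n hc
    a • u ∈ LSpace f (Fam.pullback (L.schemeNsmul n) D ^ k) := by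
  have hgen := schemeNsmul_genericPoint L n
  rw [mem_LSpace] at hu ⊢
  intro x
  have hpt : (L.schemeNsmul n).base ((Setup.translMor L a.1).base x) =
      (L.schemeNsmul n).base x := by
    have := congrArg (fun φ : A ⟶ A => φ.base x) (translMor_schemeNsmul_of_tors L n hc a)
    simpa using this
  have h1 := act_mem_localRing L a.1 x _ (hu ((Setup.translMor L a.1).base x))
  rw [pow_apply_val] at h1 ⊢
  rw [pullback_apply_of_dominant _ hgen] at h1 ⊢
  rw [map_mul, map_pow, hpt, act_pullFun_schemeNsmul L n hc a] at h1
  exact h1

end divisors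

end Fermat.Agent.S26.ISOG
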