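import Fermat.Agent.S26.Defs

/-!
# S26 / ISOG: API for `pullFun`, `Fam.pullback`, `LSpace` of `Defs.lean` along dominant morphisms

Everything is stated for the FROZEN definitions of `Fermat/Agent/S26/Defs.lean`.
"Dominant" is expressed as `φ.base (genericPoint Y) = genericPoint X`.
-/

set_option autoImplicit false

universe u

open CategoryTheory AlgebraicGeometry TopologicalSpace

namespace Fermat.Agent.S26.ISOG.PF

noncomputable section

variable {X Y Z : Scheme.{u}} [IsIntegral X] [IsIntegral Y] [IsIntegral Z]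

/-- the canonical map `O_{X,x} → K(X)` as a ring hom -/
def toFF (X : Scheme.{u}) [IsIntegral X] (x : X) : X.presheaf.stalk x →+* X.functionField :=
  algebraMap (X.presheaf.stalk x) X.functionField

theorem toFF_injective (x : X) : Function.Injective (toFF X x) :=
  IsFractionRing.injective (X.presheaf.stalk x) X.functionField

theorem toFF_eq (x : X) (h : genericPoint X ⤳ x) (a : X.presheaf.stalk x) :
    toFF X x a = (X.presheaf.stalkSpecializes h).hom a := rfl

theorem mem_localRing_iff (x : X) (u : X.functionField) :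
    u ∈ localRing X x ↔ ∃ a : X.presheaf.stalk x, toFF X x a = u := Iff.rfl

theorem toFF_mem_localRing (x : X) (a : X.presheaf.stalk x) : toFF X x a ∈ localRing X x :=
  ⟨a, rfl⟩

theorem genericPoint_specializes (x : X) : genericPoint X ⤳ x :=
  (genericPoint_spec X).specializes trivial

/-- `pullFun` on an element that is regular at the image of the generic point. -/
theorem pullFun_toFF (φ : Y ⟶ X) (a : X.presheaf.stalk (φ.base (genericPoint Y))) :
    pullFun φ (toFF X _ a) = (φ.stalkMap (genericPoint Y)).hom a := by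
  have h : toFF X _ a ∈ localRing X (φ.base (genericPoint Y)) := ⟨a, rfl⟩
  unfold pullFun
  rw [dif_pos h]
  congr 1
  exact toFF_injective _ (Classical.choose_spec h)

theorem toFF_stalkSpecializes (x : X) (h : x ⤳ genericPoint X) (u : X.functionField) :
    toFF X x ((X.presheaf.stalkSpecializes h).hom u) = u := by
  rw [toFF_eq _ (genericPoint_specializes _)]
  have := TopCat.Presheaf.stalkSpecializes_comp_apply X.presheaf
    (genericPoint_specializes x) h u
  erw [this]
  rw [TopCat.Presheaf.stalkSpecializes_refl]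
  rfl

/-- The pullback of rational functions along a dominant morphism, as a ring homomorphism. -/
def pullHom (φ : Y ⟶ X) (hφ : φ.base (genericPoint Y) = genericPoint X) :
    X.functionField →+* Y.functionField :=
  (X.presheaf.stalkSpecializes (Specializes.of_eq hφ) ≫ φ.stalkMap (genericPoint Y)).hom

theorem pullHom_apply (φ : Y ⟶ X) (hφ : φ.base (genericPoint Y) = genericPoint X)
    (u : X.functionField) : pullHom φ hφ u = pullFun φ u := by
  have h1 := toFF_stalkSpecializes (φ.base (genericPoint Y)) (Specializes.of_eq hφ) u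
  conv_rhs => rw [← h1]
  rw [pullFun_toFF]
  rfl

/-- Key compatibility: the pullback of a function regular at `φ y` is regular at `y`, and is
computed by the stalk map at `y`. -/
theorem pullHom_toFF (φ : Y ⟶ X) (hφ : φ.base (genericPoint Y) = genericPoint X) (y : Y)
    (a : X.presheaf.stalk (φ.base y)) :
    pullHom φ hφ (toFF X (φ.base y) a) = toFF Y y ((φ.stalkMap y).hom a) := by
  rw [toFF_eq _ (genericPoint_specializes _), toFF_eq _ (genericPoint_specializes _)]
  show (φ.stalkMap (genericPoint Y)).hom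
    ((X.presheaf.stalkSpecializes (Specializes.of_eq hφ)).hom
      ((X.presheaf.stalkSpecializes (genericPoint_specializes (φ.base y))).hom a)) = _
  have h2 := TopCat.Presheaf.stalkSpecializes_comp_apply X.presheaf
      (Specializes.of_eq hφ) (genericPoint_specializes (φ.base y)) a
  erw [h2]
  exact Scheme.Hom.stalkSpecializes_stalkMap_apply φ (genericPoint Y) y
    (genericPoint_specializes y) a

theorem pullFun_mem_localRing (φ : Y ⟶ X) (hφ : φ.base (genericPoint Y) = genericPoint X) (y : Y)
    {u : X.functionField} (hu : u ∈ localRing X (φ.base y)) : pullFun φ u ∈ localRing Y y := by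
  obtain ⟨a, rfl⟩ := hu
  rw [← pullHom_apply φ hφ]
  exact ⟨_, (pullHom_toFF φ hφ y a).symm⟩

theorem pullHom_injective (φ : Y ⟶ X) (hφ : φ.base (genericPoint Y) = genericPoint X) :
    Function.Injective (pullHom φ hφ) :=
  (pullHom φ hφ).injective

theorem pullFun_ne_zero (φ : Y ⟶ X) (hφ : φ.base (genericPoint Y) = genericPoint X)
    {u : X.functionField} (hu : u ≠ 0) : pullFun φ u ≠ 0 := by
  rw [← pullHom_apply φ hφ]
  exact (map_ne_zero (pullHom φ hφ)).mpr hu

/-- dominance of a composition -/
theorem comp_dominant (ψ : Z ⟶ Y) (φ : Y ⟶ X) (hψ : ψ.base (genericPoint Z) = genericPoint Y)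
    (hφ : φ.base (genericPoint Y) = genericPoint X) :
    (ψ ≫ φ).base (genericPoint Z) = genericPoint X := by
  rw [← hφ, ← hψ]; rfl

/-- Functoriality of the pullback of rational functions. -/
theorem pullHom_comp (ψ : Z ⟶ Y) (φ : Y ⟶ X) (hψ : ψ.base (genericPoint Z) = genericPoint Y)
    (hφ : φ.base (genericPoint Y) = genericPoint X) (u : X.functionField) :
    pullHom (ψ ≫ φ) (comp_dominant ψ φ hψ hφ) u = pullHom ψ hψ (pullHom φ hφ u) := by
  have hc := comp_dominant ψ φ hψ hφ
  let a : X.presheaf.stalk (φ.base (ψ.base (genericPoint Z))) :=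
    (X.presheaf.stalkSpecializes (x := φ.base (ψ.base (genericPoint Z)))
      (Specializes.of_eq hc)).hom u
  have hu : toFF X (φ.base (ψ.base (genericPoint Z))) a = u :=
    toFF_stalkSpecializes (φ.base (ψ.base (genericPoint Z))) (Specializes.of_eq hc) u
  calc pullHom (ψ ≫ φ) hc u
      = pullHom (ψ ≫ φ) hc (toFF X ((ψ ≫ φ).base (genericPoint Z)) a) :=
        congrArg (pullHom (ψ ≫ φ) hc) hu.symm
    _ = toFF Z (genericPoint Z) (((ψ ≫ φ).stalkMap (genericPoint Z)).hom a) :=
        pullHom_toFF (ψ ≫ φ) hc (genericPoint Z) a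
    _ = toFF Z (genericPoint Z) ((ψ.stalkMap (genericPoint Z)).hom
          ((φ.stalkMap (ψ.base (genericPoint Z))).hom a)) := by
        rw [Scheme.Hom.stalkMap_comp]; rfl
    _ = pullHom ψ hψ (toFF Y (ψ.base (genericPoint Z))
          ((φ.stalkMap (ψ.base (genericPoint Z))).hom a)) :=
        (pullHom_toFF ψ hψ (genericPoint Z) _).symm
    _ = pullHom ψ hψ (pullHom φ hφ (toFF X (φ.base (ψ.base (genericPoint Z))) a)) := by
        rw [pullHom_toFF φ hφ]
    _ = pullHom ψ hψ (pullHom φ hφ u) := by rw [hu]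

theorem pullFun_comp (ψ : Z ⟶ Y) (φ : Y ⟶ X) (hψ : ψ.base (genericPoint Z) = genericPoint Y)
    (hφ : φ.base (genericPoint Y) = genericPoint X) (u : X.functionField) :
    pullFun (ψ ≫ φ) u = pullFun ψ (pullFun φ u) := by
  rw [← pullHom_apply _ (comp_dominant ψ φ hψ hφ), pullHom_comp ψ φ hψ hφ, pullHom_apply,
    pullHom_apply]

theorem id_dominant : (𝟙 X : X ⟶ X).base (genericPoint X) = genericPoint X := rfl

theorem pullHom_id (u : X.functionField) : pullHom (𝟙 X) id_dominant u = u := by
  let a : X.presheaf.stalk ((𝟙 X : X ⟶ X).base (genericPoint X)) :=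
    (X.presheaf.stalkSpecializes (Specializes.of_eq (id_dominant (X := X)))).hom u
  have h1 : toFF X ((𝟙 X : X ⟶ X).base (genericPoint X)) a = u :=
    toFF_stalkSpecializes _ (Specializes.of_eq (id_dominant (X := X))) u
  have h := pullHom_toFF (𝟙 X) id_dominant (genericPoint X) a
  rw [h1] at h
  rw [h, Scheme.Hom.stalkMap_id]
  exact h1

theorem pullFun_id (u : X.functionField) : pullFun (𝟙 X) u = u := by
  rw [← pullHom_apply _ id_dominant, pullHom_id]

/-- Descent of regularity along a flat dominant morphism: if `φ^* u` is regular at `y`, then `u`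
is regular at `φ y`. -/
theorem mem_localRing_of_pullFun_mem (φ : Y ⟶ X) [Flat φ]
    (hφ : φ.base (genericPoint Y) = genericPoint X) (y : Y) {u : X.functionField}
    (hu : pullFun φ u ∈ localRing Y y) : u ∈ localRing X (φ.base y) := by
  rw [← pullHom_apply φ hφ] at hu
  obtain ⟨c, hc⟩ := hu
  have hc : toFF Y y c = pullHom φ hφ u := hc
  obtain ⟨a, b, hb, rfl⟩ := IsFractionRing.div_surjective (A := X.presheaf.stalk (φ.base y)) u
  have hb0 : toFF X (φ.base y) b ≠ 0 := by
    intro h
    have : b = 0 := toFF_injective _ (by rw [h, map_zero])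
    exact (nonZeroDivisors.ne_zero hb) this
  change toFF Y y c = pullHom φ hφ (toFF X (φ.base y) a / toFF X (φ.base y) b) at hc
  rw [map_div₀, pullHom_toFF, pullHom_toFF] at hc
  have hb1 : toFF Y y ((φ.stalkMap y).hom b) ≠ 0 := by
    rw [← pullHom_toFF φ hφ]
    exact (map_ne_zero (pullHom φ hφ)).mpr hb0
  have h1 : (φ.stalkMap y).hom a = c * (φ.stalkMap y).hom b := by
    apply toFF_injective
    rw [map_mul, hc, div_mul_cancel₀ _ hb1]
  -- faithful flatness of the local homomorphism
  have hflat : (φ.stalkMap y).hom.Flat := (Flat.iff_flat_stalkMap φ).mp inferInstance y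
  algebraize [(φ.stalkMap y).hom]
  have : IsLocalHom (algebraMap (X.presheaf.stalk (φ.base y)) (Y.presheaf.stalk y)) :=
    inferInstanceAs (IsLocalHom (φ.stalkMap y).hom)
  have hff : Module.FaithfullyFlat (X.presheaf.stalk (φ.base y)) (Y.presheaf.stalk y) :=
    Module.FaithfullyFlat.of_flat_of_isLocalHom
  have h2 : a ∈ Ideal.comap (algebraMap (X.presheaf.stalk (φ.base y)) (Y.presheaf.stalk y))
      (Ideal.map (algebraMap (X.presheaf.stalk (φ.base y)) (Y.presheaf.stalk y))
        (Ideal.span {b})) := by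
    rw [Ideal.mem_comap, Ideal.map_span, Set.image_singleton, Ideal.mem_span_singleton']
    exact ⟨c, h1.symm⟩
  rw [Ideal.comap_map_eq_self_of_faithfullyFlat, Ideal.mem_span_singleton'] at h2
  obtain ⟨r, rfl⟩ := h2
  refine ⟨r, ?_⟩
  show toFF X (φ.base y) r = toFF X (φ.base y) (r * b) / toFF X (φ.base y) b
  rw [map_mul, mul_div_assoc, div_self hb0, mul_one]

theorem pullFun_mem_localRing_iff (φ : Y ⟶ X) [Flat φ]
    (hφ : φ.base (genericPoint Y) = genericPoint X) (y : Y) (u : X.functionField) :
    pullFun φ u ∈ localRing Y y ↔ u ∈ localRing X (φ.base y) :=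
  ⟨mem_localRing_of_pullFun_mem φ hφ y, pullFun_mem_localRing φ hφ y⟩

/-! ### Dominance criteria -/

theorem dominant_of_denseRange (φ : Y ⟶ X) (h : DenseRange φ.base) :
    φ.base (genericPoint Y) = genericPoint X := by
  have h1 : IsGenericPoint (φ.base (genericPoint Y)) (closure (φ.base '' Set.univ)) :=
    (genericPoint_spec Y).image φ.continuous
  rw [Set.image_univ, h.closure_range] at h1
  exact ((genericPoint_spec X).eq h1).symm

theorem dominant_of_surjective (φ : Y ⟶ X) (h : Function.Surjective φ.base) :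
    φ.base (genericPoint Y) = genericPoint X :=
  dominant_of_denseRange φ h.denseRange

theorem dominant_of_isIso (φ : Y ⟶ X) [IsIso φ] :
    φ.base (genericPoint Y) = genericPoint X :=
  genericPoint_eq_of_isOpenImmersion φ

/-! ### Constants -/

variable {K : Type u} [Field K]

theorem constHom_eq_toFF (s : X ⟶ Spec (CommRingCat.of K)) (c : K) (x : X) :
    constHom s c = toFF X x (X.presheaf.germ ⊤ x trivial
      (s.appTop.hom ((Scheme.ΓSpecIso (CommRingCat.of K)).inv.hom c))) :=
  (Scheme.algebraMap_germ_eq_germToFunctionField X (U := ⊤) (x := x) trivial _).symm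

theorem pullHom_constHom (φ : Y ⟶ X) (hφ : φ.base (genericPoint Y) = genericPoint X)
    (s : X ⟶ Spec (CommRingCat.of K)) (s' : Y ⟶ Spec (CommRingCat.of K)) (hs : φ ≫ s = s')
    (c : K) : pullHom φ hφ (constHom s c) = constHom s' c := by
  rw [constHom_eq_toFF s c (φ.base (genericPoint Y)), pullHom_toFF,
    constHom_eq_toFF s' c (genericPoint Y)]
  congr 1
  subst hs
  have := Scheme.Hom.germ_stalkMap_apply φ ⊤ (genericPoint Y) trivial
    (s.appTop.hom ((Scheme.ΓSpecIso (CommRingCat.of K)).inv.hom c))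
  erw [this]
  rfl

/-- The pullback of rational functions along a dominant `K`-morphism as a `K`-algebra hom. -/
def pullAlgHom (φ : Y ⟶ X) (hφ : φ.base (genericPoint Y) = genericPoint X)
    (s : X ⟶ Spec (CommRingCat.of K)) (s' : Y ⟶ Spec (CommRingCat.of K)) (hs : φ ≫ s = s') :
    FF s →ₐ[K] FF s' :=
  { (pullHom φ hφ : X.functionField →+* Y.functionField) with
    commutes' := fun c => pullHom_constHom φ hφ s s' hs c }

theorem pullAlgHom_apply (φ : Y ⟶ X) (hφ : φ.base (genericPoint Y) = genericPoint X)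
    (s : X ⟶ Spec (CommRingCat.of K)) (s' : Y ⟶ Spec (CommRingCat.of K)) (hs : φ ≫ s = s')
    (u : FF s) : pullAlgHom φ hφ s s' hs u = pullFun φ (id u : X.functionField) :=
  pullHom_apply φ hφ u

/-! ### Families of local equations -/

theorem toUnit_val {F : Type u} [Field F] {v : F} (hv : v ≠ 0) : ((toUnit v : Fˣ) : F) = v := by
  unfold toUnit
  rw [dif_neg hv]
  rfl

theorem pullback_val (φ : Y ⟶ X) (hφ : φ.base (genericPoint Y) = genericPoint X) (D : Fam X)
    (y : Y) : ((Fam.pullback φ D y : (Y.functionField)ˣ) : Y.functionField) =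
      pullFun φ ((D (φ.base y) : (X.functionField)ˣ) : X.functionField) :=
  toUnit_val (pullFun_ne_zero φ hφ (Units.ne_zero _))

theorem pullback_comp (ψ : Z ⟶ Y) (φ : Y ⟶ X) (hψ : ψ.base (genericPoint Z) = genericPoint Y)
    (hφ : φ.base (genericPoint Y) = genericPoint X) (D : Fam X) :
    Fam.pullback (ψ ≫ φ) D = Fam.pullback ψ (Fam.pullback φ D) := by
  funext z
  apply Units.ext
  rw [pullback_val _ (comp_dominant ψ φ hψ hφ), pullback_val ψ hψ, pullback_val φ hφ,
    pullFun_comp ψ φ hψ hφ]
  rfl

theorem pullback_id (D : Fam X) : Fam.pullback (𝟙 X) D = D := by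
  funext x
  apply Units.ext
  rw [pullback_val _ id_dominant, pullFun_id]
  rfl

theorem pullback_mul (φ : Y ⟶ X) (hφ : φ.base (genericPoint Y) = genericPoint X) (D D' : Fam X) :
    Fam.pullback φ (D * D') = Fam.pullback φ D * Fam.pullback φ D' := by
  funext y
  apply Units.ext
  rw [Pi.mul_apply, Units.val_mul, pullback_val φ hφ, pullback_val φ hφ, pullback_val φ hφ,
    Pi.mul_apply, Units.val_mul, ← pullHom_apply φ hφ, ← pullHom_apply φ hφ,
    ← pullHom_apply φ hφ, map_mul]

theorem pullback_one (φ : Y ⟶ X) (hφ : φ.base (genericPoint Y) = genericPoint X) :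
    Fam.pullback φ (1 : Fam X) = 1 := by
  funext y
  apply Units.ext
  rw [pullback_val φ hφ, Pi.one_apply, Pi.one_apply, Units.val_one, Units.val_one,
    ← pullHom_apply φ hφ, map_one]

theorem pullback_pow (φ : Y ⟶ X) (hφ : φ.base (genericPoint Y) = genericPoint X) (D : Fam X)
    (k : ℕ) : Fam.pullback φ (D ^ k) = Fam.pullback φ D ^ k := by
  induction k with
  | zero => rw [pow_zero, pow_zero, pullback_one φ hφ]
  | succ k ih => rw [pow_succ, pow_succ, pullback_mul φ hφ, ih]

/-! ### Riemann-Roch spaces -/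

theorem mem_LSet_iff (D : Fam X) (u : X.functionField) :
    u ∈ D.LSet ↔ ∀ x : X, u * ((D x : (X.functionField)ˣ) : X.functionField) ∈ localRing X x :=
  Iff.rfl

theorem mem_LSpace_iff_mem_LSet (s : X ⟶ Spec (CommRingCat.of K)) (D : Fam X) (u : FF s) :
    u ∈ LSpace s D ↔ (id u : X.functionField) ∈ D.LSet := Iff.rfl

/-- Sections pull back to sections along a dominant morphism. -/
theorem pullFun_mem_LSet (φ : Y ⟶ X) (hφ : φ.base (genericPoint Y) = genericPoint X)
    (D : Fam X) {u : X.functionField} (hu : u ∈ D.LSet) :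
    pullFun φ u ∈ (Fam.pullback φ D).LSet := by
  intro y
  rw [pullback_val φ hφ, ← pullHom_apply φ hφ, ← pullHom_apply φ hφ, ← map_mul,
    pullHom_apply φ hφ]
  exact pullFun_mem_localRing φ hφ y (hu (φ.base y))

/-- Descent of sections along a flat surjective morphism. -/
theorem mem_LSet_of_pullFun_mem (φ : Y ⟶ X) [Flat φ] (hsurj : Function.Surjective φ.base)
    (D : Fam X) {u : X.functionField} (hu : pullFun φ u ∈ (Fam.pullback φ D).LSet) :
    u ∈ D.LSet := by
  have hφ := dominant_of_surjective φ hsurj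
  intro x
  obtain ⟨y, rfl⟩ := hsurj x
  have h := hu y
  rw [pullback_val φ hφ, ← pullHom_apply φ hφ, ← pullHom_apply φ hφ, ← map_mul,
    pullHom_apply φ hφ] at h
  exact mem_localRing_of_pullFun_mem φ hφ y h

theorem pullFun_mem_LSet_iff (φ : Y ⟶ X) [Flat φ] (hsurj : Function.Surjective φ.base)
    (D : Fam X) (u : X.functionField) :
    pullFun φ u ∈ (Fam.pullback φ D).LSet ↔ u ∈ D.LSet :=
  ⟨mem_LSet_of_pullFun_mem φ hsurj D,
    pullFun_mem_LSet φ (dominant_of_surjective φ hsurj) D⟩

/-- `map_mem_W`-shape: sections pull back to sections (algebra-hom form). -/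
theorem pullAlgHom_mem_LSpace (φ : Y ⟶ X) (hφ : φ.base (genericPoint Y) = genericPoint X)
    (s : X ⟶ Spec (CommRingCat.of K)) (s' : Y ⟶ Spec (CommRingCat.of K)) (hs : φ ≫ s = s')
    (D : Fam X) {u : FF s} (hu : u ∈ LSpace s D) :
    pullAlgHom φ hφ s s' hs u ∈ LSpace s' (Fam.pullback φ D) := by
  rw [mem_LSpace_iff_mem_LSet] at hu ⊢
  have := pullFun_mem_LSet φ hφ D hu
  rwa [← pullAlgHom_apply φ hφ s s' hs] at this

/-- `mem_L_of_map_mem_W`-shape: descent of sections along a flat surjective morphism
(algebra-hom form). -/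
theorem mem_LSpace_of_pullAlgHom_mem (φ : Y ⟶ X) [Flat φ] (hsurj : Function.Surjective φ.base)
    (s : X ⟶ Spec (CommRingCat.of K)) (s' : Y ⟶ Spec (CommRingCat.of K)) (hs : φ ≫ s = s')
    (D : Fam X) {u : FF s}
    (hu : pullAlgHom φ (dominant_of_surjective φ hsurj) s s' hs u ∈
      LSpace s' (Fam.pullback φ D)) :
    u ∈ LSpace s D := by
  rw [mem_LSpace_iff_mem_LSet] at hu ⊢
  apply mem_LSet_of_pullFun_mem φ hsurj D
  rwa [← pullAlgHom_apply φ (dominant_of_surjective φ hsurj) s s' hs]

end

end Fermat.Agent.S26.ISOG.PF
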