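/-
S26 package P3 ISOG -- the EIGHT frozen exports of the lead's `Top.lean` (P3 EXPORT 1-8), proved
with EXACTLY the frozen signatures under fresh names in the namespace `Fermat.Agent.S26.ISOG`
(sub-lead helper203; integration of the leaves L0-L7, helper8723's `Setup.lean` and
helper6316's `PullFun.lean`).

No frozen export of any other package is used: the closure is complete (kernel-checked, std axioms).
-/
import Fermat.Agent.S26.AVDefs
import Fermat.Agent.S26.ISOG.Export
import Fermat.Agent.S26.ISOG.PullFun

set_option autoImplicit false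

universe u

open CategoryTheory CategoryTheory.Limits AlgebraicGeometry NeronModelInfra GoodReductionJacobian

namespace Fermat.Agent.S26.ISOG

noncomputable section

variable {K : Type u} [Field K] [IsAlgClosed K] {A : Scheme.{u}}
  {f : A ⟶ Spec (CommRingCat.of K)}

/-- The lead's `transl` is helper8723's `Setup.translMor`. -/
theorem transl_eq_translMor (L : RelativeGroupLaw K f) (a : Pts f) :
    transl L a = Setup.translMor L a := rfl

/-- Under the standing hypotheses `[n]` is etale, finite, surjective and dominant. -/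
theorem nsmul_facts [IsIntegral A] (L : RelativeGroupLaw K f) (hc : L.IsCommutative)
    (hA : AbelianSchemePropertyBundle K f) (n : ℕ) (hn : (n : K) ≠ 0) :
    Etale (L.schemeNsmul n) ∧ IsFinite (L.schemeNsmul n) ∧
      Function.Surjective (L.schemeNsmul n).base ∧
      (L.schemeNsmul n).base (genericPoint A) = genericPoint A := by
  have := hA.smooth
  have := hA.proper
  have := L1_etale_schemeNsmul K f L hc n hn
  exact ⟨inferInstance, L2_isFinite_schemeNsmul K f L n,
    (L2_surjective_schemeNsmul K f L n).1.surj, (L2_surjective_schemeNsmul K f L n).2⟩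

/-- P3 EXPORT 1: `[n]^*` is a `K`-algebra endomorphism of the function field. -/
theorem exists_nsmul_algHom [IsIntegral A] (L : RelativeGroupLaw K f) (hc : L.IsCommutative)
    (hA : AbelianSchemePropertyBundle K f) (n : ℕ) (hn : (n : K) ≠ 0) :
    ∃ φ : FF f →ₐ[K] FF f, ∀ x : FF f, φ x = pullFun (L.schemeNsmul n) x := by
  have := hA.smooth
  have := hA.proper
  have := L1_etale_schemeNsmul K f L hc n hn
  exact ⟨nsmulHom L n, fun x => nsmulHom_apply L n x⟩

/-- P3 EXPORT 2: there are finitely many `n`-torsion points. -/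
theorem finite_TorsPts (L : RelativeGroupLaw K f) (hc : L.IsCommutative)
    (hA : AbelianSchemePropertyBundle K f) (n : ℕ) (hn : (n : K) ≠ 0) :
    Finite (TorsPts L n) := by
  have := Setup.isIntegral_of_bundle L hA
  have := hA.smooth
  have := hA.proper
  exact finite_tors L n hc hn

/-- P3 EXPORT 3: a non-trivial torsion translation acts non-trivially on the function field. -/
theorem tors_faithful [IsIntegral A] (L : RelativeGroupLaw K f) (hc : L.IsCommutative)
    (hA : AbelianSchemePropertyBundle K f) (n : ℕ) (a : TorsPts L n)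
    (h : ∀ x : FF f, pullFun (transl L a.1) x = x) : a.1 = L.one (𝟙 _) := by
  have := hA.proper
  apply eq_of_act_eq L
  intro u
  rw [act_one, act_apply]
  exact h u

/-- P3 EXPORT 4 (the heart of ISOG): the functions invariant under all `n`-torsion
translations are exactly the pullbacks under `[n]`. -/
theorem tors_fixed_iff [IsIntegral A] (L : RelativeGroupLaw K f) (hc : L.IsCommutative)
    (hA : AbelianSchemePropertyBundle K f) (n : ℕ) (hn : (n : K) ≠ 0) (x : FF f) :
    (∀ a : TorsPts L n, pullFun (transl L a.1) x = x) ↔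
      ∃ y : FF f, pullFun (L.schemeNsmul n) y = x := by
  have := hA.smooth
  have := hA.proper
  have := L1_etale_schemeNsmul K f L hc n hn
  have key := fixed_iff L n hc hn x
  constructor
  · intro h
    obtain ⟨y, hy⟩ := key.1 (fun a => (act_apply L a.1 x).trans (h a))
    exact ⟨y, (nsmulHom_apply L n y).symm.trans hy⟩
  · rintro ⟨y, hy⟩ a
    exact (act_apply L a.1 x).symm.trans (key.2 ⟨y, (nsmulHom_apply L n y).trans hy⟩ a)

/-- P3 EXPORT 5: sections pull back to sections. -/
theorem pullFun_nsmul_mem [IsIntegral A] (L : RelativeGroupLaw K f) (hc : L.IsCommutative)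
    (hA : AbelianSchemePropertyBundle K f) (n : ℕ) (hn : (n : K) ≠ 0)
    (D : Fam A) (hD : D.IsCartier) {x : FF f} (hx : x ∈ LSpace f D) :
    pullFun (L.schemeNsmul n) x ∈ LSpace f (Fam.pullback (L.schemeNsmul n) D) := by
  obtain ⟨-, -, -, hgen⟩ := nsmul_facts L hc hA n hn
  exact PF.pullFun_mem_LSet (L.schemeNsmul n) hgen D hx

/-- P3 EXPORT 6: a function whose pullback under `[n]` is a section of `[n]^* D` is a section
of `D` (`[n]` is flat and surjective). -/
theorem mem_of_pullFun_nsmul_mem [IsIntegral A] (L : RelativeGroupLaw K f)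
    (hc : L.IsCommutative) (hA : AbelianSchemePropertyBundle K f) (n : ℕ) (hn : (n : K) ≠ 0)
    (D : Fam A) (hD : D.IsCartier) {x : FF f}
    (hx : pullFun (L.schemeNsmul n) x ∈ LSpace f (Fam.pullback (L.schemeNsmul n) D)) :
    x ∈ LSpace f D := by
  obtain ⟨het, -, hsurj, -⟩ := nsmul_facts L hc hA n hn
  exact PF.mem_LSet_of_pullFun_mem (L.schemeNsmul n) hsurj D hx

/-- P3 EXPORT 7: `L([n]^* D)` is stable under the `n`-torsion translations. -/
theorem pullFun_transl_mem [IsIntegral A] (L : RelativeGroupLaw K f) (hc : L.IsCommutative)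
    (hA : AbelianSchemePropertyBundle K f) (n : ℕ) (hn : (n : K) ≠ 0)
    (D : Fam A) (hD : D.IsCartier) (a : TorsPts L n) {x : FF f}
    (hx : x ∈ LSpace f (Fam.pullback (L.schemeNsmul n) D)) :
    pullFun (transl L a.1) x ∈ LSpace f (Fam.pullback (L.schemeNsmul n) D) := by
  have := hA.smooth
  have := hA.proper
  have := L1_etale_schemeNsmul K f L hc n hn
  have h1 := act_mem_LSpace_pullback L n hc D 1 a x (by rwa [pow_one])
  rw [pow_one] at h1
  exact (act_apply L a.1 x) ▸ h1

/-- P3 EXPORT 8: pullback under `[n]` of a Cartier divisor is Cartier and commutes with powers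
up to `Same`. -/
theorem isCartier_pullback_nsmul [IsIntegral A] (L : RelativeGroupLaw K f)
    (hc : L.IsCommutative) (hA : AbelianSchemePropertyBundle K f) (n : ℕ) (hn : (n : K) ≠ 0)
    (D : Fam A) (hD : D.IsCartier) :
    (Fam.pullback (L.schemeNsmul n) D).IsCartier ∧
      ∀ k : ℕ, Fam.Same (Fam.pullback (L.schemeNsmul n) (D ^ k))
        ((Fam.pullback (L.schemeNsmul n) D) ^ k) := by
  obtain ⟨-, -, -, hgen⟩ := nsmul_facts L hc hA n hn
  constructor
  · intro y
    obtain ⟨V, hyV, hV⟩ := hD ((L.schemeNsmul n).base y)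
    refine ⟨(L.schemeNsmul n) ⁻¹ᵁ V, hyV, fun z hz => ?_⟩
    obtain ⟨h1, h2⟩ := hV ((L.schemeNsmul n).base z) hz
    have e1 : (((Fam.pullback (L.schemeNsmul n) D z / Fam.pullback (L.schemeNsmul n) D y :
        (A.functionField)ˣ)) : A.functionField) =
        pullFun (L.schemeNsmul n) (((D ((L.schemeNsmul n).base z) /
          D ((L.schemeNsmul n).base y) : (A.functionField)ˣ)) : A.functionField) := by
      rw [Units.val_div_eq_div_val, Units.val_div_eq_div_val, PF.pullback_val _ hgen,
        PF.pullback_val _ hgen, ← PF.pullHom_apply _ hgen, ← PF.pullHom_apply _ hgen,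
        ← PF.pullHom_apply _ hgen, map_div₀]
    have e2 : (((Fam.pullback (L.schemeNsmul n) D z / Fam.pullback (L.schemeNsmul n) D y :
        (A.functionField)ˣ)) : A.functionField)⁻¹ =
        pullFun (L.schemeNsmul n) ((((D ((L.schemeNsmul n).base z) /
          D ((L.schemeNsmul n).base y) : (A.functionField)ˣ)) : A.functionField)⁻¹) := by
      rw [e1, ← PF.pullHom_apply _ hgen, ← PF.pullHom_apply _ hgen, map_inv₀]
    refine ⟨?_, ?_⟩
    · rw [e1]; exact PF.pullFun_mem_localRing _ hgen z h1
    · rw [e2]; exact PF.pullFun_mem_localRing _ hgen z h2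
  · intro k y
    rw [PF.pullback_pow _ hgen, div_self', Units.val_one]
    exact ⟨Subring.one_mem _, by rw [inv_one]; exact Subring.one_mem _⟩

end

end Fermat.Agent.S26.ISOG
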