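/-
S26 package P3 ISOG, leaf L5 (R): rigidity -- a morphism is determined by its action on the
function field (helper1245).  Statement = `Skeleton.L5_eq_of_pullFun_eq` of
`Fermat/Agent/S26/ISOG/Skeleton.lean` (origin/helper203), verbatim.

Proof (after helper5716's Mathlib-vocabulary `eq_of_funMap_eq`): `Spec K(X) ⟶ X` is dominant,
`X` is reduced and separated over `S`, and the two composites `Spec K(X) ⟶ X ⟶ X` are
`Spec` of the two pullbacks of functions (`ext_of_isDominant_of_isSeparated`).
-/
import Fermat.Agent.S26.Defs

set_option autoImplicit false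

universe u

open CategoryTheory CategoryTheory.Limits AlgebraicGeometry NeronModelInfra GoodReductionJacobian

namespace Fermat.Agent.S26.ISOG

section L5

variable {X : Scheme.{u}} [IsIntegral X]

/-- `pullFun` on an element of the local ring at `φ(η)`. -/
theorem L5_pullFun_algebraMap {Y : Scheme.{u}} [IsIntegral Y] (φ : Y ⟶ X)
    (a : X.presheaf.stalk (φ.base (genericPoint Y))) :
    pullFun φ (algebraMap (X.presheaf.stalk (φ.base (genericPoint Y))) X.functionField a) =
      (φ.stalkMap (genericPoint Y)).hom a := by
  have h : algebraMap (X.presheaf.stalk (φ.base (genericPoint Y))) X.functionField a ∈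
      localRing X (φ.base (genericPoint Y)) := ⟨a, rfl⟩
  unfold pullFun
  rw [dif_pos h]
  congr 1
  exact IsFractionRing.injective (X.presheaf.stalk (φ.base (genericPoint Y))) X.functionField
    (Classical.choose_spec h)

/-- For a dominant morphism, `pullFun` is the stalk map at the generic point (after the canonical
identification of the stalk at `φ(η_Y) = η_X` with the function field). -/
theorem L5_pullFun_eq {Y : Scheme.{u}} [IsIntegral Y] (φ : Y ⟶ X)
    (hφ : φ.base (genericPoint Y) = genericPoint X) (u : X.functionField) :
    pullFun φ u = (X.presheaf.stalkSpecializes (specializes_of_eq hφ) ≫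
      φ.stalkMap (genericPoint Y)).hom u := by
  have h1 : u = algebraMap (X.presheaf.stalk (φ.base (genericPoint Y))) X.functionField
      ((X.presheaf.stalkSpecializes (specializes_of_eq hφ)).hom u) := by
    rw [RingHom.algebraMap_toAlgebra]
    have h2 := X.presheaf.stalkSpecializes_comp
      ((genericPoint_spec X).specializes (Set.mem_univ (φ.base (genericPoint Y))))
      (specializes_of_eq hφ)
    rw [X.presheaf.stalkSpecializes_refl] at h2
    exact (congrArg (fun f => f.hom u) h2).symm
  conv_lhs => rw [h1]
  rw [L5_pullFun_algebraMap]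
  rfl

/-- The generic point, as a morphism from the spectrum of the function field, is dominant. -/
theorem L5_isDominant_fromSpecStalk : IsDominant (X.fromSpecStalk (genericPoint X)) := by
  refine ⟨?_⟩
  have h : genericPoint X ∈ Set.range (X.fromSpecStalk (genericPoint X)) := by
    rw [Scheme.range_fromSpecStalk]
    exact specializes_rfl
  refine dense_iff_closure_eq.mpr (Set.eq_univ_of_univ_subset ?_)
  rw [← (genericPoint_spec X).def]
  exact closure_mono (Set.singleton_subset_iff.mpr h)

end L5

/-- L5. -/
theorem L5_eq_of_pullFun_eq {X S : Scheme.{u}} [IsIntegral X] (s : X ⟶ S) [IsSeparated s]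
    (σ τ : X ⟶ X) (hσ : σ ≫ s = s) (hτ : τ ≫ s = s)
    (hσg : σ.base (genericPoint X) = genericPoint X)
    (hτg : τ.base (genericPoint X) = genericPoint X)
    (h : ∀ u : X.functionField, pullFun σ u = pullFun τ u) : σ = τ := by
  have := L5_isDominant_fromSpecStalk (X := X)
  refine ext_of_isDominant_of_isSeparated s (hσ.trans hτ.symm)
    (X.fromSpecStalk (genericPoint X)) ?_
  have key : X.presheaf.stalkSpecializes (specializes_of_eq hσg) ≫ σ.stalkMap (genericPoint X) =
      X.presheaf.stalkSpecializes (specializes_of_eq hτg) ≫ τ.stalkMap (genericPoint X) := by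
    ext u
    rw [← L5_pullFun_eq σ hσg u, ← L5_pullFun_eq τ hτg u]
    exact h u
  have h1 : ∀ (ρ : X ⟶ X) (hρ : ρ.base (genericPoint X) = genericPoint X),
      X.fromSpecStalk (genericPoint X) ≫ ρ =
        Spec.map (X.presheaf.stalkSpecializes (specializes_of_eq hρ) ≫
          ρ.stalkMap (genericPoint X)) ≫ X.fromSpecStalk (genericPoint X) := by
    intro ρ hρ
    rw [Spec.map_comp, Category.assoc, Scheme.SpecMap_stalkSpecializes_fromSpecStalk,
      Scheme.SpecMap_stalkMap_fromSpecStalk]
  rw [h1 σ hσg, h1 τ hτg, key]

end Fermat.Agent.S26.ISOG
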